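import Mathlib

/-!
# An irreducibility criterion for bivariate polynomials (helper328, S28)

`P = X^n + a₁ X^(n-1) + ... + a_n ∈ k[Y][X]` with `deg_Y a₁ = K ≥ 1`, `deg_Y a_i < K` for `i ≥ 2`
and `a_n ≠ 0` is irreducible in `k[Y][X]`, hence in `k(Y)[X]`.
-/

namespace Fermat.Agent.S28.H328

open Polynomial

/-- Coefficients of the swapped bivariate polynomial. -/
theorem coeff_coeff_swap {R : Type*} [CommSemiring R] (p : R[X][X]) (a b : ℕ) :
    ((Polynomial.Bivariate.swap p).coeff a).coeff b = (p.coeff b).coeff a := by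
  induction p using Polynomial.induction_on' with
  | add p q hp hq => simp [hp, hq]
  | monomial n f =>
    induction f using Polynomial.induction_on' with
    | add f g hf hg =>
      rw [map_add, map_add, coeff_add, coeff_add, hf, hg, coeff_add, coeff_add]
    | monomial m r =>
      rw [Polynomial.Bivariate.swap_monomial_monomial]
      simp only [coeff_monomial]
      by_cases h1 : n = b <;> by_cases h2 : m = a <;> simp [h1, h2, coeff_monomial]

/-- If `G` is monic in the outer variable and its swap has positive degree, then the leading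
coefficient of the swap has degree `< natDegree G`. -/
theorem natDegree_leadingCoeff_swap_lt {k : Type*} [Field k] (G : k[X][X]) (hG : G.Monic)
    (hH : 0 < (Polynomial.Bivariate.swap G).natDegree) :
    ((Polynomial.Bivariate.swap G).leadingCoeff).natDegree < G.natDegree := by
  have hne : Polynomial.Bivariate.swap G ≠ 0 := by
    intro h; rw [h] at hH; simp at hH
  have hL : (Polynomial.Bivariate.swap G).leadingCoeff ≠ 0 := leadingCoeff_ne_zero.mpr hne
  rw [natDegree_lt_iff_degree_lt hL, degree_lt_iff_coeff_zero]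
  intro b hb
  rw [leadingCoeff, coeff_coeff_swap]
  rcases Nat.lt_or_ge G.natDegree b with h | h
  · rw [coeff_eq_zero_of_natDegree_lt h, coeff_zero]
  · have hb' : b = G.natDegree := le_antisymm h hb
    rw [hb', hG.coeff_natDegree, coeff_one, if_neg (Nat.pos_iff_ne_zero.mp hH)]

/-- **Irreducibility criterion.** -/
theorem irreducible_of_coeff_natDegree {k : Type*} [Field k] (P : k[X][X]) (hP : P.Monic)
    (hn : 0 < P.natDegree) (K : ℕ) (hK : 0 < K)
    (h1 : (P.coeff (P.natDegree - 1)).natDegree = K)
    (h2 : ∀ i, i + 1 < P.natDegree → (P.coeff i).natDegree < K)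
    (h0 : P.coeff 0 ≠ 0) : Irreducible P := by
  classical
  rw [hP.irreducible_iff_natDegree]
  refine ⟨fun h => by simp [h] at hn, ?_⟩
  intro G₁ G₂ hG₁ hG₂ hmul
  by_contra hcon
  rw [not_or] at hcon
  obtain ⟨hd1, hd2⟩ := hcon
  have hd1' : 0 < G₁.natDegree := Nat.pos_of_ne_zero hd1
  have hd2' : 0 < G₂.natDegree := Nat.pos_of_ne_zero hd2
  have hnsum : G₁.natDegree + G₂.natDegree = P.natDegree := by
    rw [← hmul, hG₁.natDegree_mul hG₂]
  have hQmul : Polynomial.Bivariate.swap G₁ * Polynomial.Bivariate.swap G₂ =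
      Polynomial.Bivariate.swap P := by rw [← map_mul, hmul]
  -- the leading coefficient of `a₁`
  have hc0 : (P.coeff (P.natDegree - 1)).leadingCoeff ≠ 0 := by
    rw [Ne, leadingCoeff_eq_zero]
    intro h
    rw [h] at h1
    simp at h1
    omega
  have hQK : (Polynomial.Bivariate.swap P).coeff K =
      monomial (P.natDegree - 1) (P.coeff (P.natDegree - 1)).leadingCoeff := by
    ext b
    rw [coeff_coeff_swap, coeff_monomial]
    by_cases hb : P.natDegree - 1 = b
    · rw [if_pos hb, ← hb, leadingCoeff, h1]
    · rw [if_neg hb]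
      rcases lt_trichotomy b (P.natDegree - 1) with h | h | h
      · exact coeff_eq_zero_of_natDegree_lt (h2 b (by omega))
      · exact absurd h.symm hb
      · rcases Nat.lt_or_ge P.natDegree b with h' | h'
        · rw [coeff_eq_zero_of_natDegree_lt h', coeff_zero]
        · have hbn : b = P.natDegree := by omega
          rw [hbn, hP.coeff_natDegree, coeff_one, if_neg (by omega)]
  have hQhigh : ∀ a, K < a → (Polynomial.Bivariate.swap P).coeff a = 0 := by
    intro a ha
    ext b
    rw [coeff_coeff_swap, coeff_zero]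
    rcases lt_trichotomy b (P.natDegree - 1) with h | h | h
    · exact coeff_eq_zero_of_natDegree_lt (lt_trans (h2 b (by omega)) ha)
    · rw [h]; exact coeff_eq_zero_of_natDegree_lt (by rw [h1]; exact ha)
    · rcases Nat.lt_or_ge P.natDegree b with h' | h'
      · rw [coeff_eq_zero_of_natDegree_lt h', coeff_zero]
      · have hbn : b = P.natDegree := by omega
        rw [hbn, hP.coeff_natDegree, coeff_one, if_neg (by omega)]
  have hQK0 : (Polynomial.Bivariate.swap P).coeff K ≠ 0 := by
    rw [hQK]
    exact (monomial_eq_zero_iff _ _).not.mpr hc0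
  have hQdeg : (Polynomial.Bivariate.swap P).natDegree = K := by
    apply le_antisymm
    · rw [natDegree_le_iff_coeff_eq_zero]
      exact fun a ha => hQhigh a ha
    · exact le_natDegree_of_ne_zero hQK0
  have hQlc : (Polynomial.Bivariate.swap P).leadingCoeff =
      monomial (P.natDegree - 1) (P.coeff (P.natDegree - 1)).leadingCoeff := by
    rw [leadingCoeff, hQdeg, hQK]
  have hQ0 : Polynomial.Bivariate.swap P ≠ 0 := by
    intro h; rw [h] at hQK0; simp at hQK0
  have hH1 : Polynomial.Bivariate.swap G₁ ≠ 0 := by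
    intro h; rw [h, zero_mul] at hQmul; exact hQ0 hQmul.symm
  have hH2 : Polynomial.Bivariate.swap G₂ ≠ 0 := by
    intro h; rw [h, mul_zero] at hQmul; exact hQ0 hQmul.symm
  have hL1 : (Polynomial.Bivariate.swap G₁).leadingCoeff ≠ 0 := leadingCoeff_ne_zero.mpr hH1
  have hL2 : (Polynomial.Bivariate.swap G₂).leadingCoeff ≠ 0 := leadingCoeff_ne_zero.mpr hH2
  have hLmul : (Polynomial.Bivariate.swap G₁).leadingCoeff *
      (Polynomial.Bivariate.swap G₂).leadingCoeff =
      monomial (P.natDegree - 1) (P.coeff (P.natDegree - 1)).leadingCoeff := by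
    rw [← leadingCoeff_mul, hQmul, hQlc]
  have hLdeg : ((Polynomial.Bivariate.swap G₁).leadingCoeff).natDegree +
      ((Polynomial.Bivariate.swap G₂).leadingCoeff).natDegree = P.natDegree - 1 := by
    rw [← natDegree_mul hL1 hL2, hLmul, natDegree_monomial, if_neg hc0]
  -- key auxiliary: a factor whose swap is constant forces `P.coeff 0 = 0`
  have key : ∀ (G G' : k[X][X]), G.Monic → 0 < G.natDegree → G * G' = P →
      (Polynomial.Bivariate.swap G).natDegree = 0 →
      ((Polynomial.Bivariate.swap G).leadingCoeff).natDegree +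
        ((Polynomial.Bivariate.swap G').leadingCoeff).natDegree = P.natDegree - 1 →
      (Polynomial.Bivariate.swap G).leadingCoeff * (Polynomial.Bivariate.swap G').leadingCoeff =
        monomial (P.natDegree - 1) (P.coeff (P.natDegree - 1)).leadingCoeff →
      (Polynomial.Bivariate.swap G').leadingCoeff ≠ 0 → False := by
    intro G G' hG hGdeg hGmul hHdeg hdegsum hprod hL'
    obtain ⟨h, hh⟩ : ∃ h : k[X], Polynomial.Bivariate.swap G = C h :=
      ⟨_, eq_C_of_natDegree_eq_zero hHdeg⟩
    have hGh : G = h.map C := by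
      have := congrArg Polynomial.Bivariate.swap hh
      rwa [Polynomial.Bivariate.swap_swap_apply, Polynomial.Bivariate.swap_C] at this
    have hlc : (Polynomial.Bivariate.swap G).leadingCoeff = h := by rw [hh, leadingCoeff_C]
    have hdegh : h.natDegree = G.natDegree := by
      rw [hGh, natDegree_map_eq_of_injective C_injective]
    rw [hlc] at hdegsum hprod
    -- X ∣ h
    have hXh : (X : k[X]) ∣ h := by
      by_contra hX
      have hdvd : (X : k[X]) ^ (P.natDegree - 1) ∣
          h * (Polynomial.Bivariate.swap G').leadingCoeff := by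
        rw [hprod, ← C_mul_X_pow_eq_monomial]
        exact dvd_mul_left _ _
      have := Polynomial.prime_X.pow_dvd_of_dvd_mul_left _ hX hdvd
      have hle := natDegree_le_of_dvd this hL'
      rw [natDegree_X_pow] at hle
      omega
    have hh0 : h.coeff 0 = 0 := by
      obtain ⟨w, rfl⟩ := hXh
      simp
    have hG0 : G.coeff 0 = 0 := by
      rw [hGh, coeff_map, hh0, map_zero]
    apply h0
    rw [← hGmul, mul_coeff_zero, hG0, zero_mul]
  by_cases hz1 : (Polynomial.Bivariate.swap G₁).natDegree = 0
  · exact key G₁ G₂ hG₁ hd1' hmul hz1 hLdeg hLmul hL2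
  by_cases hz2 : (Polynomial.Bivariate.swap G₂).natDegree = 0
  · refine key G₂ G₁ hG₂ hd2' (by rw [mul_comm]; exact hmul) hz2 ?_ ?_ hL1
    · rw [add_comm]; exact hLdeg
    · rw [mul_comm]; exact hLmul
  have b1 := natDegree_leadingCoeff_swap_lt G₁ hG₁ (Nat.pos_of_ne_zero hz1)
  have b2 := natDegree_leadingCoeff_swap_lt G₂ hG₂ (Nat.pos_of_ne_zero hz2)
  omega

/-- The criterion over the fraction field `k(Y)` of `k[Y]`. -/
theorem irreducible_map_of_coeff_natDegree {k : Type*} [Field k] (P : k[X][X]) (hP : P.Monic)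
    (hn : 0 < P.natDegree) (K : ℕ) (hK : 0 < K)
    (h1 : (P.coeff (P.natDegree - 1)).natDegree = K)
    (h2 : ∀ i, i + 1 < P.natDegree → (P.coeff i).natDegree < K)
    (h0 : P.coeff 0 ≠ 0) (L : Type*) [Field L] [Algebra k[X] L] [IsFractionRing k[X] L] :
    Irreducible (P.map (algebraMap k[X] L)) :=
  (hP.irreducible_iff_irreducible_map_fraction_map).mp
    (irreducible_of_coeff_natDegree P hP hn K hK h1 h2 h0)

end Fermat.Agent.S28.H328
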