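/-
S28 / helper328: abstract independence lemma (IND).

If `P̄ ∈ k[Y][X]` is irreducible over `k(Y)`, `(j̄, ū)` is a zero of `P̄` in a field `E'` and
`j̄` is transcendental over `k`, then no nonzero `G ∈ k[Y][X]` of `X`-degree `< deg_X P̄`
vanishes at `(j̄, ū)`.
-/
import Mathlib

set_option autoImplicit false

noncomputable section

namespace Fermat.Agent.S28.H328

open Polynomial

/-- Bivariate evaluation `A[Y][X] → B`, coefficients through `f`, `Y ↦ y`, `X ↦ x`. -/
def biEval {A B : Type*} [CommRing A] [CommRing B] (f : A →+* B) (y x : B) : A[X][X] →+* B :=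
  eval₂RingHom (eval₂RingHom f y) x

theorem biEval_apply {A B : Type*} [CommRing A] [CommRing B] (f : A →+* B) (y x : B)
    (G : A[X][X]) : biEval f y x G = G.eval₂ (eval₂RingHom f y) x := rfl

@[simp] theorem biEval_C {A B : Type*} [CommRing A] [CommRing B] (f : A →+* B) (y x : B)
    (b : A[X]) : biEval f y x (C b) = b.eval₂ f y := by
  simp [biEval]

@[simp] theorem biEval_C_C {A B : Type*} [CommRing A] [CommRing B] (f : A →+* B) (y x : B)
    (a : A) : biEval f y x (C (C a)) = f a := by
  simp [biEval]

@[simp] theorem biEval_X {A B : Type*} [CommRing A] [CommRing B] (f : A →+* B) (y x : B) :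
    biEval f y x X = x := by
  simp [biEval]

@[simp] theorem biEval_C_X {A B : Type*} [CommRing A] [CommRing B] (f : A →+* B) (y x : B) :
    biEval f y x (C X) = y := by
  simp [biEval]

/-- Compatibility of bivariate evaluation with a commuting square of ring homs. -/
theorem biEval_map {A A' B B' : Type*} [CommRing A] [CommRing A'] [CommRing B] [CommRing B']
    (f : A →+* B) (f' : A' →+* B') (π : A →+* A') (r : B →+* B')
    (h : ∀ a, r (f a) = f' (π a)) (y x : B) (G : A[X][X]) :
    r (biEval f y x G) = biEval f' (r y) (r x) (G.map (mapRingHom π)) := by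
  have key : r.comp (biEval f y x) = (biEval f' (r y) (r x)).comp
      (mapRingHom (mapRingHom π)) := by
    apply Polynomial.ringHom_ext
    · intro b
      have key2 : (r.comp (biEval f y x)).comp C =
          ((biEval f' (r y) (r x)).comp (mapRingHom (mapRingHom π))).comp C := by
        apply Polynomial.ringHom_ext
        · intro a
          simp [h]
        · simp
      exact RingHom.congr_fun key2 b
    · simp
  exact RingHom.congr_fun key G

section Ind

variable {k E' : Type*} [Field k] [Field E'] (κ : k →+* E') (jb ub : E')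

/-- **(IND)** -/
theorem eq_zero_of_natDegree_lt_of_irreducible
    {L : Type*} [Field L] [Algebra k[X] L] [IsFractionRing k[X] L]
    (htr : Function.Injective (eval₂RingHom κ jb))
    (Pb : k[X][X]) (hirr : Irreducible (Pb.map (algebraMap k[X] L)))
    (hroot : biEval κ jb ub Pb = 0)
    (G : k[X][X]) (hdeg : G.natDegree < Pb.natDegree) (hG : biEval κ jb ub G = 0) : G = 0 := by
  classical
  set φ : L →+* E' := IsFractionRing.lift (g := eval₂RingHom κ jb) htr with hφ
  have hφa : ∀ a : k[X], φ (algebraMap k[X] L a) = eval₂RingHom κ jb a := fun a =>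
    IsFractionRing.lift_algebraMap htr a
  have hinj : Function.Injective (algebraMap k[X] L) := IsFractionRing.injective k[X] L
  have hevalmap : ∀ H : k[X][X], (H.map (algebraMap k[X] L)).eval₂ φ ub = biEval κ jb ub H := by
    intro H
    rw [Polynomial.eval₂_map, biEval_apply]
    congr 1
    ext a <;> simp [hφa]
  by_contra hG0
  have hGL0 : G.map (algebraMap k[X] L) ≠ 0 := by
    intro h
    exact hG0 ((Polynomial.map_eq_zero_iff hinj).mp h)
  rcases hirr.isCoprime_or_dvd (G.map (algebraMap k[X] L)) with hco | hdvd
  · obtain ⟨a, b, hab⟩ := hco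
    have := congrArg (Polynomial.eval₂ φ ub) hab
    rw [Polynomial.eval₂_add, Polynomial.eval₂_mul, Polynomial.eval₂_mul, hevalmap, hevalmap,
      hroot, hG, mul_zero, mul_zero, add_zero, Polynomial.eval₂_one] at this
    exact zero_ne_one this
  · have h1 := Polynomial.natDegree_le_of_dvd hdvd hGL0
    rw [Polynomial.natDegree_map_eq_of_injective hinj,
      Polynomial.natDegree_map_eq_of_injective hinj] at h1
    omega

end Ind

end Fermat.Agent.S28.H328
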