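/-
S28 / helper328: representation of the elements of `Frac(R)(j, u)` as `G(j,u) / b(j)`
with `deg_X G < n`, where `u` is a root of a monic `P ∈ R[Y][X]` of `X`-degree `n` at `Y = j`.
-/
import Mathlib
import Fermat.Agent.S28.H328.Ind

set_option autoImplicit false
set_option linter.unusedSectionVars false
set_option linter.style.haveILetI false
set_option linter.unusedVariables false

noncomputable section

namespace Fermat.Agent.S28.H328

open Polynomial

section Gen

variable {R E : Type*} [CommRing R] [IsDomain R] [Field E] (ι : R →+* E) (j u : E)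
  (P : R[X][X])

/-- The set of `x` admitting a representation `b(j) x = G(j,u)`, `b ≠ 0`, `deg_X G < deg_X P`. -/
def repSet : Set E :=
  {x | ∃ (b : R[X]) (G : R[X][X]), b ≠ 0 ∧ G.natDegree < P.natDegree ∧
    b.eval₂ ι j * x = biEval ι j u G}

variable {ι j u P}

theorem natDegree_pos_of_root (hP : P.Monic) (hroot : biEval ι j u P = 0) :
    0 < P.natDegree := by
  by_contra h
  have h0 : P.natDegree = 0 := by omega
  have h1 : P = 1 := by
    rw [Polynomial.eq_C_of_natDegree_eq_zero h0]
    have := hP.coeff_natDegree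
    rw [h0] at this
    rw [this, map_one]
  rw [h1, map_one] at hroot
  exact one_ne_zero hroot

theorem ne_one_of_root (hroot : biEval ι j u P = 0) : P ≠ 1 := by
  rintro rfl
  rw [map_one] at hroot
  exact one_ne_zero hroot

theorem biEval_modByMonic (hP : P.Monic) (hroot : biEval ι j u P = 0) (G : R[X][X]) :
    biEval ι j u (G %ₘ P) = biEval ι j u G := by
  conv_rhs => rw [← Polynomial.modByMonic_add_div G P]
  rw [map_add, map_mul, hroot, zero_mul, add_zero]

/-- Any relation `b(j) x = G(j,u)` with `b ≠ 0` (no degree bound) puts `x` in `repSet`. -/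
theorem mem_repSet_of_eq (hP : P.Monic) (hroot : biEval ι j u P = 0) {x : E} (b : R[X])
    (hb : b ≠ 0) (G : R[X][X]) (h : b.eval₂ ι j * x = biEval ι j u G) :
    x ∈ repSet ι j u P := by
  refine ⟨b, G %ₘ P, hb, Polynomial.natDegree_modByMonic_lt G hP (ne_one_of_root hroot), ?_⟩
  rw [biEval_modByMonic hP hroot, h]

theorem biEval_mem_repSet (hP : P.Monic) (hroot : biEval ι j u P = 0) (G : R[X][X]) :
    biEval ι j u G ∈ repSet ι j u P :=
  mem_repSet_of_eq hP hroot 1 one_ne_zero G (by simp)

theorem inv_mem_repSet (htr : Function.Injective (eval₂RingHom ι j)) (hP : P.Monic)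
    (hroot : biEval ι j u P = 0) {x : E} (hx : x ∈ repSet ι j u P) :
    x⁻¹ ∈ repSet ι j u P := by
  classical
  by_cases hx0 : x = 0
  · rw [hx0, inv_zero]
    exact mem_repSet_of_eq hP hroot 1 one_ne_zero 0 (by simp)
  obtain ⟨b, G, hb, -, h⟩ := hx
  have hbj : b.eval₂ ι j ≠ 0 := by
    intro h0
    apply hb
    apply htr
    rw [map_zero]
    exact h0
  have hy0 : biEval ι j u G ≠ 0 := by
    rw [← h]
    exact mul_ne_zero hbj hx0
  set y : E := biEval ι j u G with hy
  letI : Algebra R[X] E := (eval₂RingHom ι j).toAlgebra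
  have halg : ∀ a : R[X], algebraMap R[X] E a = a.eval₂ ι j := fun a => rfl
  have hu : IsIntegral R[X] u := ⟨P, hP, hroot⟩
  have hyI : IsIntegral R[X] y := by
    have h1 : y = Polynomial.aeval u G := rfl
    rw [h1]
    have h2 : Polynomial.aeval u G ∈ Algebra.adjoin R[X] {u} :=
      Polynomial.aeval_mem_adjoin_singleton _ _
    exact _root_.adjoin_le_integralClosure hu h2
  haveI : Nontrivial R[X] := inferInstance
  have hyA : IsAlgebraic R[X] y := hyI.isAlgebraic
  obtain ⟨q, hq0, hq⟩ := hyA.exists_nonzero_coeff_and_aeval_eq_zero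
    (mem_nonZeroDivisors_of_ne_zero hy0)
  -- `y * aeval y (divX q) = - q₀(j)`
  have hq' : Polynomial.aeval y q.divX * y + (q.coeff 0).eval₂ ι j = 0 := by
    have := congrArg (Polynomial.aeval y) (Polynomial.divX_mul_X_add q)
    rw [map_add, map_mul, Polynomial.aeval_X, Polynomial.aeval_C, hq, halg] at this
    exact this
  have hH : Polynomial.aeval y q.divX = biEval ι j u (q.divX.comp G) := by
    rw [biEval_apply, Polynomial.eval₂_comp]
    rfl
  refine mem_repSet_of_eq hP hroot (q.coeff 0) hq0 (-(C b * q.divX.comp G)) ?_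
  rw [map_neg, map_mul, biEval_C, ← hH]
  have hx' : x = y / b.eval₂ ι j := by
    rw [eq_div_iff hbj, mul_comm]
    exact h
  have h3 : (q.coeff 0).eval₂ ι j = - (Polynomial.aeval y q.divX * y) := by
    rw [eq_neg_iff_add_eq_zero, add_comm]
    exact hq'
  rw [h3, hx']
  field_simp

variable (ι j u P)

/-- The field `Frac(R)(j,u)` presented by representations. -/
def repField (htr : Function.Injective (eval₂RingHom ι j)) (hP : P.Monic)
    (hroot : biEval ι j u P = 0) : Subfield E where
  carrier := repSet ι j u P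
  mul_mem' := by
    rintro x₁ x₂ ⟨b₁, G₁, hb₁, -, h₁⟩ ⟨b₂, G₂, hb₂, -, h₂⟩
    refine mem_repSet_of_eq hP hroot (b₁ * b₂) (mul_ne_zero hb₁ hb₂) (G₁ * G₂) ?_
    rw [Polynomial.eval₂_mul, map_mul, ← h₁, ← h₂]
    ring
  one_mem' := mem_repSet_of_eq hP hroot 1 one_ne_zero 1 (by simp)
  add_mem' := by
    rintro x₁ x₂ ⟨b₁, G₁, hb₁, -, h₁⟩ ⟨b₂, G₂, hb₂, -, h₂⟩
    refine mem_repSet_of_eq hP hroot (b₁ * b₂) (mul_ne_zero hb₁ hb₂)
      (C b₂ * G₁ + C b₁ * G₂) ?_
    rw [Polynomial.eval₂_mul, map_add, map_mul, map_mul, biEval_C, biEval_C, ← h₁, ← h₂]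
    ring
  zero_mem' := mem_repSet_of_eq hP hroot 1 one_ne_zero 0 (by simp)
  neg_mem' := by
    rintro x ⟨b, G, hb, -, h⟩
    refine mem_repSet_of_eq hP hroot b hb (-G) ?_
    rw [map_neg, ← h]
    ring
  inv_mem' := fun _ hx => inv_mem_repSet htr hP hroot hx

variable {ι j u P}

theorem mem_repField_iff (htr : Function.Injective (eval₂RingHom ι j)) (hP : P.Monic)
    (hroot : biEval ι j u P = 0) {x : E} :
    x ∈ repField ι j u P htr hP hroot ↔ ∃ (b : R[X]) (G : R[X][X]), b ≠ 0 ∧
      G.natDegree < P.natDegree ∧ b.eval₂ ι j * x = biEval ι j u G := Iff.rfl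

theorem biEval_mem_repField (htr : Function.Injective (eval₂RingHom ι j)) (hP : P.Monic)
    (hroot : biEval ι j u P = 0) (G : R[X][X]) :
    biEval ι j u G ∈ repField ι j u P htr hP hroot :=
  biEval_mem_repSet hP hroot G

theorem coeff_mem_repField (htr : Function.Injective (eval₂RingHom ι j)) (hP : P.Monic)
    (hroot : biEval ι j u P = 0) (r : R) : ι r ∈ repField ι j u P htr hP hroot := by
  have := biEval_mem_repField htr hP hroot (C (C r))
  rwa [biEval_C_C] at this

theorem j_mem_repField (htr : Function.Injective (eval₂RingHom ι j)) (hP : P.Monic)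
    (hroot : biEval ι j u P = 0) : j ∈ repField ι j u P htr hP hroot := by
  have := biEval_mem_repField htr hP hroot (C X)
  rwa [biEval_C_X] at this

theorem u_mem_repField (htr : Function.Injective (eval₂RingHom ι j)) (hP : P.Monic)
    (hroot : biEval ι j u P = 0) : u ∈ repField ι j u P htr hP hroot := by
  have := biEval_mem_repField htr hP hroot X
  rwa [biEval_X] at this

/-- **(GEN)**: every element of the subfield generated by `j` and `u` has a representation. -/
theorem exists_rep_of_mem_closure (htr : Function.Injective (eval₂RingHom ι j)) (hP : P.Monic)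
    (hroot : biEval ι j u P = 0) {x : E} (hx : x ∈ Subfield.closure ({j, u} : Set E)) :
    ∃ (b : R[X]) (G : R[X][X]), b ≠ 0 ∧ G.natDegree < P.natDegree ∧
      b.eval₂ ι j * x = biEval ι j u G := by
  have hle : Subfield.closure ({j, u} : Set E) ≤ repField ι j u P htr hP hroot := by
    rw [Subfield.closure_le]
    rintro y (rfl | rfl)
    · exact j_mem_repField htr hP hroot
    · exact u_mem_repField htr hP hroot
  exact hle hx

end Gen

end Fermat.Agent.S28.H328
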