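/-
S28 / helper328: route (d) -- the interface `UnitData` (single-pole modular unit) and the
adapter `UnitData → BasisData`.
-/
import Mathlib
import Fermat.Agent.S28.Basis
import Fermat.Agent.S28.H508.CoreToBasis
import Fermat.Agent.S28.H328.Criterion
import Fermat.Agent.S28.H328.Ind
import Fermat.Agent.S28.H328.Gen

set_option autoImplicit false
set_option linter.unusedSectionVars false
set_option linter.style.haveILetI false
set_option linter.unusedVariables false

noncomputable section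

open ModularCurve HahnSeries Polynomial

namespace Fermat.Agent.S28.H328

/-! ### Interface -/

/-- Route (d), basic form: a series `u ∈ ℤ((q))`, a polynomial `P ∈ ℤ[Y][X]` with constant
leading coefficient `c` prime to `ℓ`, `P(j, u) = 0`, `P mod ℓ` irreducible over `𝔽_ℓ(Y)`,
and every `j(q^d)`, `d ∣ N`, lies in `ℚ(j, u)`. -/
structure UnitDataIrr (N : ℕ) [NeZero N] (ℓ : ℕ) [Fact ℓ.Prime] : Prop where
  exists_unit : ∃ (u : LaurentSeries ℤ) (P : Polynomial (Polynomial ℤ)) (c : ℕ),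
    ¬ ℓ ∣ c ∧ P.leadingCoeff = Polynomial.C (c : ℤ) ∧
    P.eval₂ (evalAt (jqModC ℤ)) u = 0 ∧
    Irreducible ((P.map (Polynomial.mapRingHom (Int.castRingHom (ZMod ℓ)))).map
      (algebraMap (Polynomial (ZMod ℓ)) (RatFunc (ZMod ℓ)))) ∧
    ∀ (d : ℕ) [NeZero d], d ∣ N → qExpand ℚ d jq ∈
      Subfield.closure ({jq, coeffMap (Int.castRingHom ℚ) u} : Set (LaurentSeries ℚ))

/-- Route (d), degree form: irreducibility mod `ℓ` is replaced by the hypotheses of the
degree criterion (`P mod ℓ = c Xⁿ + a₁ Xⁿ⁻¹ + ⋯ + aₙ`, `deg_Y a₁ = K > deg_Y aᵢ`, `aₙ ≠ 0`). -/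
structure UnitData (N : ℕ) [NeZero N] (ℓ : ℕ) [Fact ℓ.Prime] : Prop where
  exists_unit : ∃ (u : LaurentSeries ℤ) (P : Polynomial (Polynomial ℤ)) (c K : ℕ),
    ¬ ℓ ∣ c ∧ P.leadingCoeff = Polynomial.C (c : ℤ) ∧ 0 < K ∧
    P.eval₂ (evalAt (jqModC ℤ)) u = 0 ∧
    ((P.coeff (P.natDegree - 1)).map (Int.castRingHom (ZMod ℓ))).natDegree = K ∧
    (∀ i, i + 1 < P.natDegree →
      ((P.coeff i).map (Int.castRingHom (ZMod ℓ))).natDegree < K) ∧
    (P.coeff 0).map (Int.castRingHom (ZMod ℓ)) ≠ 0 ∧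
    ∀ (d : ℕ) [NeZero d], d ∣ N → qExpand ℚ d jq ∈
      Subfield.closure ({jq, coeffMap (Int.castRingHom ℚ) u} : Set (LaurentSeries ℚ))

/-! ### Generalities on evaluation -/

theorem evalAt_eq_eval₂RingHom {A : Type*} [CommRing A] (y : LaurentSeries A) :
    evalAt y = eval₂RingHom (Int.castRingHom (LaurentSeries A)) y := by
  apply Polynomial.ringHom_ext
  · intro a
    simp [evalAt]
  · simp [evalAt]

theorem eval₂_evalAt_eq_biEval {A : Type*} [CommRing A] (y x : LaurentSeries A)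
    (P : Polynomial (Polynomial ℤ)) :
    P.eval₂ (evalAt y) x = biEval (Int.castRingHom (LaurentSeries A)) y x P := by
  rw [biEval_apply, evalAt_eq_eval₂RingHom]

/-- Transport of a bivariate integer relation along `ℤ → k`. -/
theorem biEval_coeffMap_intCast (k : Type*) [CommRing k] (y x : LaurentSeries ℤ)
    (P : Polynomial (Polynomial ℤ)) :
    coeffMap (Int.castRingHom k) (P.eval₂ (evalAt y) x) =
      biEval (HahnSeries.C : k →+* LaurentSeries k) (coeffMap (Int.castRingHom k) y)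
        (coeffMap (Int.castRingHom k) x) (P.map (mapRingHom (Int.castRingHom k))) := by
  rw [eval₂_evalAt_eq_biEval]
  apply biEval_map
  intro a
  rw [eq_intCast, map_intCast, eq_intCast, map_intCast]

theorem natDegree_map_of_leadingCoeff {k : Type*} [Field k] (P : Polynomial (Polynomial ℤ))
    (c : ℕ) (hc : (c : k) ≠ 0) (hlc : P.leadingCoeff = Polynomial.C (c : ℤ)) :
    (P.map (mapRingHom (Int.castRingHom k))).natDegree = P.natDegree := by
  apply Polynomial.natDegree_map_of_leadingCoeff_ne_zero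
  rw [hlc, Polynomial.coe_mapRingHom, Polynomial.map_C]
  rw [eq_intCast, Int.cast_natCast]
  exact Polynomial.C_ne_zero.mpr hc

theorem leadingCoeff_map_of_leadingCoeff {k : Type*} [Field k] (P : Polynomial (Polynomial ℤ))
    (c : ℕ) (hc : (c : k) ≠ 0) (hlc : P.leadingCoeff = Polynomial.C (c : ℤ)) :
    (P.map (mapRingHom (Int.castRingHom k))).leadingCoeff = Polynomial.C (c : k) := by
  rw [Polynomial.leadingCoeff_map_of_leadingCoeff_ne_zero, hlc]
  · rw [Polynomial.coe_mapRingHom, Polynomial.map_C, eq_intCast, Int.cast_natCast]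
  · rw [hlc, Polynomial.coe_mapRingHom, Polynomial.map_C, eq_intCast, Int.cast_natCast]
    exact Polynomial.C_ne_zero.mpr hc

theorem algebraMap_laurent_eq_C (k : Type*) [Field k] :
    algebraMap k (LaurentSeries k) = (HahnSeries.C : k →+* LaurentSeries k) :=
  RingHom.ext fun c => (algebraMap_laurentSeries_eq_single k c).trans rfl

theorem aeval_eq_eval₂_C (k : Type*) [Field k] (y : LaurentSeries k) (r : Polynomial k) :
    Polynomial.aeval y r = r.eval₂ (HahnSeries.C : k →+* LaurentSeries k) y := by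
  rw [Polynomial.aeval_def, algebraMap_laurent_eq_C]

theorem eval₂RingHom_C_injective (k : Type*) [Field k] :
    Function.Injective (eval₂RingHom (HahnSeries.C : k →+* LaurentSeries k) (jqModC k)) := by
  intro p q hpq
  apply h88_aeval_jqModC_injective k
  rw [aeval_eq_eval₂_C, aeval_eq_eval₂_C]
  exact hpq

/-! ### (B3): independence mod `ℓ` -/

theorem coeff_sum_fin_C_mul_X_pow {A : Type*} [CommRing A] {n : ℕ} (f : Fin n → A) (i : Fin n) :
    (∑ k : Fin n, Polynomial.C (f k) * Polynomial.X ^ (k : ℕ)).coeff (i : ℕ) = f i := by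
  rw [Polynomial.finsetSum_coeff, Finset.sum_eq_single i]
  · rw [Polynomial.coeff_C_mul, Polynomial.coeff_X_pow, if_pos rfl, mul_one]
  · intro k _ hk
    rw [Polynomial.coeff_C_mul, Polynomial.coeff_X_pow, if_neg, mul_zero]
    intro h
    exact hk (Fin.ext h.symm)
  · intro h
    exact absurd (Finset.mem_univ i) h

theorem natDegree_sum_fin_lt {A : Type*} [CommRing A] {n : ℕ} (hn : 0 < n) (f : Fin n → A) :
    (∑ k : Fin n, Polynomial.C (f k) * Polynomial.X ^ (k : ℕ)).natDegree < n := by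
  by_cases h0 : (∑ k : Fin n, Polynomial.C (f k) * Polynomial.X ^ (k : ℕ)) = 0
  · rw [h0, Polynomial.natDegree_zero]
    exact hn
  · exact (Polynomial.natDegree_lt_iff_degree_lt h0).mpr (Polynomial.degree_sum_fin_lt f)

theorem b3_of_irreducible (ℓ : ℕ) [Fact ℓ.Prime] (u : LaurentSeries ℤ)
    (P : Polynomial (Polynomial ℤ)) (c : ℕ) (hc : ¬ ℓ ∣ c)
    (hlc : P.leadingCoeff = Polynomial.C (c : ℤ))
    (hroot : P.eval₂ (evalAt (jqModC ℤ)) u = 0)
    (hirr : Irreducible ((P.map (Polynomial.mapRingHom (Int.castRingHom (ZMod ℓ)))).map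
      (algebraMap (Polynomial (ZMod ℓ)) (RatFunc (ZMod ℓ)))))
    (f : Fin P.natDegree → Polynomial (ZMod ℓ))
    (hf : ∑ i, Polynomial.aeval (jqModC (ZMod ℓ)) (f i) *
          coeffMap (Int.castRingHom (ZMod ℓ)) (u ^ (i : ℕ)) = 0) : ∀ i, f i = 0 := by
  classical
  have hcz : (c : ZMod ℓ) ≠ 0 := by
    rw [Ne, ZMod.natCast_eq_zero_iff]
    exact hc
  have hdeg : (P.map (mapRingHom (Int.castRingHom (ZMod ℓ)))).natDegree = P.natDegree :=
    natDegree_map_of_leadingCoeff P c hcz hlc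
  have hrootb : biEval (HahnSeries.C : ZMod ℓ →+* LaurentSeries (ZMod ℓ)) (jqModC (ZMod ℓ))
      (coeffMap (Int.castRingHom (ZMod ℓ)) u)
      (P.map (mapRingHom (Int.castRingHom (ZMod ℓ)))) = 0 := by
    have := biEval_coeffMap_intCast (ZMod ℓ) (jqModC ℤ) u P
    rw [hroot, map_zero, coeffMap_jqModC] at this
    exact this.symm
  intro i
  have hn : 0 < P.natDegree := lt_of_le_of_lt (Nat.zero_le _) i.2
  have hGdeg : (∑ k : Fin P.natDegree, Polynomial.C (f k) * Polynomial.X ^ (k : ℕ)).natDegree <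
      (P.map (mapRingHom (Int.castRingHom (ZMod ℓ)))).natDegree := by
    rw [hdeg]
    exact natDegree_sum_fin_lt hn f
  have hGev : biEval (HahnSeries.C : ZMod ℓ →+* LaurentSeries (ZMod ℓ)) (jqModC (ZMod ℓ))
      (coeffMap (Int.castRingHom (ZMod ℓ)) u)
      (∑ k : Fin P.natDegree, Polynomial.C (f k) * Polynomial.X ^ (k : ℕ)) = 0 := by
    rw [map_sum, ← hf]
    refine Finset.sum_congr rfl fun k _ => ?_
    rw [map_mul, map_pow, biEval_C, biEval_X, aeval_eq_eval₂_C, map_pow]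
  have h0 := eq_zero_of_natDegree_lt_of_irreducible
    (HahnSeries.C : ZMod ℓ →+* LaurentSeries (ZMod ℓ)) (jqModC (ZMod ℓ))
    (coeffMap (Int.castRingHom (ZMod ℓ)) u) (eval₂RingHom_C_injective (ZMod ℓ))
    (P.map (mapRingHom (Int.castRingHom (ZMod ℓ)))) hirr hrootb _ hGdeg hGev
  rw [← coeff_sum_fin_C_mul_X_pow f i, h0, Polynomial.coeff_zero]

/-! ### (B1): integrality of the powers of `u` -/

theorem isIntegralElem_pow {A B : Type*} [CommRing A] [CommRing B] (f : A →+* B) {x : B}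
    (hx : f.IsIntegralElem x) (i : ℕ) : f.IsIntegralElem (x ^ i) := by
  induction i with
  | zero => rw [pow_zero]; exact f.isIntegralElem_one
  | succ i ih => rw [pow_succ]; exact RingHom.IsIntegralElem.mul f ih hx

theorem b1_of_root (ℓ : ℕ) [Fact ℓ.Prime] (u : LaurentSeries ℤ)
    (P : Polynomial (Polynomial ℤ)) (c : ℕ) (hc : ¬ ℓ ∣ c)
    (hlc : P.leadingCoeff = Polynomial.C (c : ℤ))
    (hroot : P.eval₂ (evalAt (jqModC ℤ)) u = 0) (hn : 1 ≤ P.natDegree) (i : ℕ) :
    ∃ (c' : ℕ) (Q : Polynomial (Polynomial ℤ)), ¬ ℓ ∣ c' ∧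
      Q.leadingCoeff = Polynomial.C (c' : ℤ) ∧
      Q.eval₂ (evalAt (jqModC ℤ)) (u ^ i) = 0 := by
  classical
  have hℓ : ℓ.Prime := Fact.out
  have hc0 : c ≠ 0 := by
    rintro rfl
    exact hc (dvd_zero _)
  have hP0 : P ≠ 0 := by
    intro h
    rw [h, Polynomial.leadingCoeff_zero] at hlc
    have := congrArg (fun p => p.coeff 0) hlc
    simp only [Polynomial.coeff_zero, Polynomial.coeff_C_zero] at this
    exact hc0 (by exact_mod_cast this.symm)
  have h1 : (evalAt (jqModC ℤ)).IsIntegralElem (evalAt (jqModC ℤ) (Polynomial.C (c : ℤ)) * u) := by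
    refine ⟨Polynomial.integralNormalization P, Polynomial.monic_integralNormalization hP0, ?_⟩
    rw [← hlc, Polynomial.integralNormalization_eval₂_leadingCoeff_mul hn, hroot, mul_zero]
  obtain ⟨Q, hQ, hQroot⟩ := isIntegralElem_pow _ h1 i
  have ha0 : (Polynomial.C (((c ^ i : ℕ) : ℤ)) : Polynomial ℤ) ≠ 0 := by
    rw [Ne, Polynomial.C_eq_zero]
    exact_mod_cast pow_ne_zero i hc0
  refine ⟨(c ^ i) ^ Q.natDegree, Q.comp (Polynomial.C (Polynomial.C (((c ^ i : ℕ) : ℤ))) *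
    Polynomial.X), ?_, ?_, ?_⟩
  · intro h
    exact hc (hℓ.dvd_of_dvd_pow (hℓ.dvd_of_dvd_pow h))
  · rw [Polynomial.leadingCoeff_comp, hQ.leadingCoeff, one_mul, Polynomial.leadingCoeff_C_mul_X,
      ← map_pow]
    · congr 1
    · rw [Polynomial.natDegree_C_mul_X _ ha0]
      exact one_ne_zero
  · rw [Polynomial.eval₂_comp, Polynomial.eval₂_mul, Polynomial.eval₂_C, Polynomial.eval₂_X]
    rw [mul_pow, ← map_pow, ← map_pow] at hQroot
    have : (Polynomial.C (((c ^ i : ℕ) : ℤ)) : Polynomial ℤ) = Polynomial.C ((c : ℤ) ^ i) := by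
      congr 1
    rw [this]
    exact hQroot

/-! ### (B2): spanning -/

/-- The monic normalisation over `ℚ` of an integer polynomial with constant leading
coefficient. -/
theorem monic_normalise (P : Polynomial (Polynomial ℤ)) (c : ℕ) (hc0 : c ≠ 0)
    (hlc : P.leadingCoeff = Polynomial.C (c : ℤ)) :
    (Polynomial.C (Polynomial.C ((c : ℚ)⁻¹)) *
      P.map (mapRingHom (Int.castRingHom ℚ))).Monic := by
  have hcq : (c : ℚ) ≠ 0 := by exact_mod_cast hc0
  have hlcQ := leadingCoeff_map_of_leadingCoeff (k := ℚ) P c hcq hlc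
  rw [Polynomial.Monic, Polynomial.leadingCoeff_mul, Polynomial.leadingCoeff_C, hlcQ,
    ← Polynomial.C_mul, inv_mul_cancel₀ hcq, Polynomial.C_1]

theorem natDegree_normalise (P : Polynomial (Polynomial ℤ)) (c : ℕ) (hc0 : c ≠ 0)
    (hlc : P.leadingCoeff = Polynomial.C (c : ℤ)) :
    (Polynomial.C (Polynomial.C ((c : ℚ)⁻¹)) *
      P.map (mapRingHom (Int.castRingHom ℚ))).natDegree = P.natDegree := by
  have hcq : (c : ℚ) ≠ 0 := by exact_mod_cast hc0
  rw [Polynomial.natDegree_C_mul, natDegree_map_of_leadingCoeff (k := ℚ) P c hcq hlc]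
  rw [Ne, Polynomial.C_eq_zero]
  exact inv_ne_zero hcq

theorem eval₂_C_mem_jField (p : Polynomial ℚ) :
    p.eval₂ (HahnSeries.C : ℚ →+* LaurentSeries ℚ) (jqModC ℚ) ∈ jField ℚ := by
  rw [← aeval_eq_eval₂_C]
  exact IntermediateField.algebra_adjoin_le_adjoin _ _
    (Polynomial.aeval_mem_adjoin_singleton _ _)

theorem mem_span_of_rep {n : ℕ} (uQ x : LaurentSeries ℚ) (b : Polynomial ℚ)
    (G : Polynomial (Polynomial ℚ)) (hb : b.eval₂ (HahnSeries.C : ℚ →+* LaurentSeries ℚ)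
      (jqModC ℚ) ≠ 0) (hG : G.natDegree < n)
    (h : b.eval₂ (HahnSeries.C : ℚ →+* LaurentSeries ℚ) (jqModC ℚ) * x =
      biEval (HahnSeries.C : ℚ →+* LaurentSeries ℚ) (jqModC ℚ) uQ G) :
    x ∈ Submodule.span (jField ℚ) (Set.range fun i : Fin n => uQ ^ (i : ℕ)) := by
  have hx : x = ∑ i : Fin n,
      ((b.eval₂ (HahnSeries.C : ℚ →+* LaurentSeries ℚ) (jqModC ℚ))⁻¹ *
        (G.coeff i).eval₂ (HahnSeries.C : ℚ →+* LaurentSeries ℚ) (jqModC ℚ)) * uQ ^ (i : ℕ) := by
    rw [biEval_apply, Polynomial.eval₂_eq_sum_range' _ hG, ← Fin.sum_univ_eq_sum_range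
      (fun i => (eval₂RingHom (HahnSeries.C : ℚ →+* LaurentSeries ℚ) (jqModC ℚ)) (G.coeff i) *
        uQ ^ i) n] at h
    have h' : x = (b.eval₂ (HahnSeries.C : ℚ →+* LaurentSeries ℚ) (jqModC ℚ))⁻¹ *
        ∑ i : Fin n, (eval₂RingHom (HahnSeries.C : ℚ →+* LaurentSeries ℚ) (jqModC ℚ))
          (G.coeff i) * uQ ^ (i : ℕ) := by
      rw [← h, inv_mul_cancel_left₀ hb]
    rw [h', Finset.mul_sum]
    refine Finset.sum_congr rfl fun i _ => ?_
    rw [mul_assoc]
    rfl
  rw [hx]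
  refine Submodule.sum_mem _ fun i _ => ?_
  have hmem : (b.eval₂ (HahnSeries.C : ℚ →+* LaurentSeries ℚ) (jqModC ℚ))⁻¹ *
      (G.coeff i).eval₂ (HahnSeries.C : ℚ →+* LaurentSeries ℚ) (jqModC ℚ) ∈ jField ℚ :=
    mul_mem (inv_mem (eval₂_C_mem_jField b)) (eval₂_C_mem_jField _)
  have := Submodule.smul_mem (Submodule.span (jField ℚ)
    (Set.range fun i : Fin n => uQ ^ (i : ℕ))) (⟨_, hmem⟩ : jField ℚ)
    (Submodule.subset_span (Set.mem_range_self i))
  rwa [IntermediateField.smul_def, smul_eq_mul] at this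

attribute [local instance 100000] HahnSeries.powerSeriesAlgebra in
/-- The full function field lies in any subfield containing the `j(q^d)`, `d ∣ N`. -/
theorem full_le_of_gen (N : ℕ) [NeZero N] (S : Subfield (LaurentSeries ℚ))
    (hgen : ∀ (d : ℕ) [NeZero d], d ∣ N → qExpand ℚ d jq ∈ S)
    {x : LaurentSeries ℚ} (hx : x ∈ modularFunctionFieldFull N) : x ∈ S := by
  unfold modularFunctionFieldFull at hx
  induction hx using IntermediateField.adjoin_induction with
  | mem x hx =>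
    obtain ⟨d, hd, hdN, rfl⟩ := hx
    exact hgen d hdN
  | algebraMap r =>
    have h : algebraMap ℚ (LaurentSeries ℚ) r =
        (r.num : LaurentSeries ℚ) / (r.den : LaurentSeries ℚ) := by
      conv_lhs => rw [← Rat.num_div_den r]
      rw [map_div₀, map_intCast, map_natCast]
    rw [h]
    exact div_mem (intCast_mem S _) (natCast_mem S _)
  | add x y _ _ hx hy => exact add_mem hx hy
  | inv x _ hx => exact inv_mem hx
  | mul x y _ _ hx hy => exact mul_mem hx hy

theorem b2_of_gen (N : ℕ) [NeZero N] (u : LaurentSeries ℤ)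
    (P : Polynomial (Polynomial ℤ)) (c : ℕ) (hc0 : c ≠ 0)
    (hlc : P.leadingCoeff = Polynomial.C (c : ℤ))
    (hroot : P.eval₂ (evalAt (jqModC ℤ)) u = 0)
    (hgen : ∀ (d : ℕ) [NeZero d], d ∣ N → qExpand ℚ d jq ∈
      Subfield.closure ({jq, coeffMap (Int.castRingHom ℚ) u} : Set (LaurentSeries ℚ)))
    (x : LaurentSeries ℚ) (hx : x ∈ modularFunctionFieldFull N) :
    ∃ (g : Polynomial ℤ) (f : Fin P.natDegree → Polynomial ℤ), g ≠ 0 ∧
      evalAt (jqModC ℚ) g * x =
        ∑ i, evalAt (jqModC ℚ) (f i) * coeffMap (Int.castRingHom ℚ) (u ^ (i : ℕ)) := by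
  classical
  have hcq : (c : ℚ) ≠ 0 := by exact_mod_cast hc0
  have hmonic := monic_normalise P c hc0 hlc
  have hnat := natDegree_normalise P c hc0 hlc
  have hrootQ : biEval (HahnSeries.C : ℚ →+* LaurentSeries ℚ) (jqModC ℚ)
      (coeffMap (Int.castRingHom ℚ) u)
      (Polynomial.C (Polynomial.C ((c : ℚ)⁻¹)) * P.map (mapRingHom (Int.castRingHom ℚ))) = 0 := by
    have := biEval_coeffMap_intCast ℚ (jqModC ℤ) u P
    rw [hroot, map_zero, coeffMap_jqModC] at this
    rw [map_mul, ← this, mul_zero]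
  have hxc : x ∈ Subfield.closure
      ({jqModC ℚ, coeffMap (Int.castRingHom ℚ) u} : Set (LaurentSeries ℚ)) :=
    full_le_of_gen N _ hgen hx
  obtain ⟨b, G, hb, hG, h⟩ := exists_rep_of_mem_closure (eval₂RingHom_C_injective ℚ) hmonic
    hrootQ hxc
  rw [hnat] at hG
  have hbj : b.eval₂ (HahnSeries.C : ℚ →+* LaurentSeries ℚ) (jqModC ℚ) ≠ 0 := by
    intro h0
    apply hb
    apply eval₂RingHom_C_injective ℚ
    rw [map_zero]
    exact h0
  have hspan := mem_span_of_rep (n := P.natDegree) _ x b G hbj hG h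
  obtain ⟨g, f, hg, hgf⟩ := H508.exists_cleared_of_mem_span _ hspan
  refine ⟨g, f, hg, ?_⟩
  rw [hgf]
  refine Finset.sum_congr rfl fun i _ => ?_
  rw [map_pow]

/-! ### The adapter -/

theorem natDegree_pos_of_root' (ℓ : ℕ) [Fact ℓ.Prime] (u : LaurentSeries ℤ)
    (P : Polynomial (Polynomial ℤ)) (c : ℕ) (hc : ¬ ℓ ∣ c)
    (hlc : P.leadingCoeff = Polynomial.C (c : ℤ))
    (hroot : P.eval₂ (evalAt (jqModC ℤ)) u = 0) : 1 ≤ P.natDegree := by
  by_contra h
  have h0 : P.natDegree = 0 := by omega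
  have hc0 : c ≠ 0 := by
    rintro rfl
    exact hc (dvd_zero _)
  have hP : P = Polynomial.C (Polynomial.C (c : ℤ)) := by
    rw [Polynomial.eq_C_of_natDegree_eq_zero h0]
    congr 1
    rw [← hlc, Polynomial.leadingCoeff, h0]
  rw [hP, Polynomial.eval₂_C, evalAt_eq_eval₂RingHom, Polynomial.coe_eval₂RingHom,
    Polynomial.eval₂_C] at hroot
  have h1 : ((c : ℤ) : LaurentSeries ℤ) ≠ 0 := by
    rw [← map_intCast (HahnSeries.C : ℤ →+* LaurentSeries ℤ)]
    exact (map_ne_zero_iff _ HahnSeries.C_injective).mpr (Int.natCast_ne_zero.mpr hc0)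
  exact h1 (by simpa using hroot)

/-- **Route (d) adapter**: `UnitDataIrr → BasisData`, with `y i = u ^ i`. -/
theorem basisData_of_unitDataIrr (N : ℕ) [NeZero N] (ℓ : ℕ) [Fact ℓ.Prime]
    (h : UnitDataIrr N ℓ) : BasisData N ℓ := by
  obtain ⟨u, P, c, hc, hlc, hroot, hirr, hgen⟩ := h.exists_unit
  have hc0 : c ≠ 0 := by
    rintro rfl
    exact hc (dvd_zero _)
  have hn := natDegree_pos_of_root' ℓ u P c hc hlc hroot
  refine ⟨P.natDegree, fun i => u ^ (i : ℕ), ?_, ?_, ?_⟩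
  · intro i
    exact b1_of_root ℓ u P c hc hlc hroot hn i
  · intro x hx
    exact b2_of_gen N u P c hc0 hlc hroot hgen x hx
  · intro f hf
    exact b3_of_irreducible ℓ u P c hc hlc hroot hirr f hf

/-- Degree form ⇒ irreducibility form, by the degree criterion. -/
theorem unitDataIrr_of_unitData (N : ℕ) [NeZero N] (ℓ : ℕ) [Fact ℓ.Prime]
    (h : UnitData N ℓ) : UnitDataIrr N ℓ := by
  classical
  obtain ⟨u, P, c, K, hc, hlc, hK, hroot, h1, h2, h0, hgen⟩ := h.exists_unit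
  refine ⟨u, P, c, hc, hlc, hroot, ?_, hgen⟩
  have hcz : (c : ZMod ℓ) ≠ 0 := by
    rw [Ne, ZMod.natCast_eq_zero_iff]
    exact hc
  have hn := natDegree_pos_of_root' ℓ u P c hc hlc hroot
  set Pb : Polynomial (Polynomial (ZMod ℓ)) := P.map (mapRingHom (Int.castRingHom (ZMod ℓ)))
    with hPb
  have hdeg : Pb.natDegree = P.natDegree := natDegree_map_of_leadingCoeff P c hcz hlc
  have hlcb : Pb.leadingCoeff = Polynomial.C (c : ZMod ℓ) :=
    leadingCoeff_map_of_leadingCoeff P c hcz hlc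
  have hCne : (Polynomial.C ((c : ZMod ℓ)⁻¹) : Polynomial (ZMod ℓ)) ≠ 0 := by
    rw [Ne, Polynomial.C_eq_zero]
    exact inv_ne_zero hcz
  set Q : Polynomial (Polynomial (ZMod ℓ)) := Polynomial.C (Polynomial.C ((c : ZMod ℓ)⁻¹)) * Pb
    with hQ
  have hQmonic : Q.Monic := by
    rw [Polynomial.Monic, hQ, Polynomial.leadingCoeff_mul, Polynomial.leadingCoeff_C, hlcb,
      ← Polynomial.C_mul, inv_mul_cancel₀ hcz, Polynomial.C_1]
  have hQdeg : Q.natDegree = P.natDegree := by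
    rw [hQ, Polynomial.natDegree_C_mul hCne, hdeg]
  have hQcoeff : ∀ i, (Q.coeff i).natDegree =
      ((P.coeff i).map (Int.castRingHom (ZMod ℓ))).natDegree := by
    intro i
    rw [hQ, Polynomial.coeff_C_mul, hPb, Polynomial.coeff_map, Polynomial.coe_mapRingHom,
      Polynomial.natDegree_C_mul (inv_ne_zero hcz)]
  have hQirr : Irreducible (Q.map (algebraMap (Polynomial (ZMod ℓ)) (RatFunc (ZMod ℓ)))) := by
    apply irreducible_map_of_coeff_natDegree Q hQmonic (by rw [hQdeg]; exact hn) K hK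
    · rw [hQdeg, hQcoeff]
      exact h1
    · intro i hi
      rw [hQdeg] at hi
      rw [hQcoeff]
      exact h2 i hi
    · rw [hQ, Polynomial.coeff_C_mul, hPb, Polynomial.coeff_map, Polynomial.coe_mapRingHom]
      exact mul_ne_zero hCne h0
  have hPbQ : Pb = Polynomial.C (Polynomial.C (c : ZMod ℓ)) * Q := by
    rw [hQ, ← mul_assoc, ← Polynomial.C_mul, ← Polynomial.C_mul, mul_inv_cancel₀ hcz,
      Polynomial.C_1, Polynomial.C_1, one_mul]
  rw [hPbQ, Polynomial.map_mul, Polynomial.map_C]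
  refine (irreducible_isUnit_mul ?_).mpr hQirr
  apply Polynomial.isUnit_C.mpr
  apply IsUnit.map
  exact Polynomial.isUnit_C.mpr (IsUnit.mk0 _ hcz)

/-- **Route (d) adapter**, degree form. -/
theorem basisData_of_unitData (N : ℕ) [NeZero N] (ℓ : ℕ) [Fact ℓ.Prime]
    (h : UnitData N ℓ) : BasisData N ℓ :=
  basisData_of_unitDataIrr N ℓ (unitDataIrr_of_unitData N ℓ h)

end Fermat.Agent.S28.H328
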