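/-
S28 / helper328: route (d) -- adapter from the `ℤ_(ℓ)`-form of the unit data (monic
`P ∈ ℤ_(ℓ)[Y][X]`, degree conditions in characteristic `0` with unit leading coefficients,
generation stated with `IntermediateField.adjoin`) to `UnitData`, hence to `BasisData`.
This is the output shape of helper267's bridge `UnitInput.exists_unitData`.
-/
import Mathlib
import Fermat.Agent.S28.H328.UnitData
import Fermat.Agent.S28.H566.ClearDen
import Fermat.Agent.S28.H806.GaussRing

set_option autoImplicit false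
set_option linter.unusedSectionVars false
set_option linter.style.haveILetI false
set_option linter.unusedVariables false

noncomputable section

open ModularCurve HahnSeries Polynomial

namespace Fermat.Agent.S28.H328

theorem coeffMap_intCast_rat_injective :
    Function.Injective (coeffMap (Int.castRingHom ℚ) : LaurentSeries ℤ → LaurentSeries ℚ) := by
  intro x y h
  ext k
  have := congrArg (fun z => z.coeff k) h
  simp only [coeffMap_coeff] at this
  exact Int.cast_injective this

/-- `ℚ(S) ⊆` the subfield generated by `S` (for any `ℚ`-algebra structure on the field). -/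
theorem mem_closure_of_mem_adjoin {E : Type*} [Field E] [Algebra ℚ E] (S : Set E) {x : E}
    (hx : x ∈ IntermediateField.adjoin ℚ S) : x ∈ Subfield.closure S := by
  induction hx using IntermediateField.adjoin_induction with
  | mem x hx => exact Subfield.subset_closure hx
  | algebraMap r =>
    have h : algebraMap ℚ E r = (r.num : E) / (r.den : E) := by
      conv_lhs => rw [← Rat.num_div_den r]
      rw [map_div₀, map_intCast, map_natCast]
    rw [h]
    exact div_mem (intCast_mem _ _) (natCast_mem _ _)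
  | add x y _ _ hx hy => exact add_mem hx hy
  | inv x _ hx => exact inv_mem hx
  | mul x y _ _ hx hy => exact mul_mem hx hy

section

variable (ℓ : ℕ) [Fact ℓ.Prime]

theorem resZl_comp_intCast :
    (H806.resZl ℓ).comp (Int.castRingHom ↥(GaloisRep.ratLocalizedAt ℓ)) = Int.castRingHom (ZMod ℓ) :=
  RingHom.ext_int _ _

theorem subtype_comp_intCast :
    (GaloisRep.ratLocalizedAt ℓ).subtype.comp (Int.castRingHom ↥(GaloisRep.ratLocalizedAt ℓ)) = Int.castRingHom ℚ :=
  RingHom.ext_int _ _

theorem resZl_natCast_ne_zero {c : ℕ} (hc : ¬ ℓ ∣ c) : H806.resZl ℓ (c : ↥(GaloisRep.ratLocalizedAt ℓ)) ≠ 0 := by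
  rw [map_natCast, Ne, ZMod.natCast_eq_zero_iff]
  exact hc

theorem natCast_ratLoc_ne_zero {c : ℕ} (hc : ¬ ℓ ∣ c) : (c : ↥(GaloisRep.ratLocalizedAt ℓ)) ≠ 0 := by
  intro h
  apply resZl_natCast_ne_zero ℓ hc
  rw [h, map_zero]

/-- Reduction mod `ℓ` of a coefficient of the integral multiple. -/
theorem map_intCast_zmod_coeff {P : Polynomial (Polynomial ↥(GaloisRep.ratLocalizedAt ℓ))} {c : ℕ}
    {P' : Polynomial (Polynomial ℤ)}
    (hP' : P'.map (Polynomial.mapRingHom (Int.castRingHom ↥(GaloisRep.ratLocalizedAt ℓ))) =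
      Polynomial.C (Polynomial.C ((c : ℕ) : ↥(GaloisRep.ratLocalizedAt ℓ))) * P) (i : ℕ) :
    (P'.coeff i).map (Int.castRingHom (ZMod ℓ)) =
      Polynomial.C (H806.resZl ℓ (c : ↥(GaloisRep.ratLocalizedAt ℓ))) * (P.coeff i).map (H806.resZl ℓ) := by
  have h1 : (P'.coeff i).map (Int.castRingHom ↥(GaloisRep.ratLocalizedAt ℓ)) = Polynomial.C ((c : ℕ) : ↥(GaloisRep.ratLocalizedAt ℓ)) * P.coeff i := by
    have := congrArg (fun p => p.coeff i) hP'
    simp only [Polynomial.coeff_map, Polynomial.coe_mapRingHom, Polynomial.coeff_C_mul] at this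
    exact this
  rw [← resZl_comp_intCast ℓ, ← Polynomial.map_map, h1, Polynomial.map_mul, Polynomial.map_C]

theorem natDegree_map_resZl_of_isUnit {p : Polynomial ↥(GaloisRep.ratLocalizedAt ℓ)} (hp : IsUnit p.leadingCoeff) :
    (p.map (H806.resZl ℓ)).natDegree = p.natDegree :=
  Polynomial.natDegree_map_of_leadingCoeff_ne_zero _ (hp.map (H806.resZl ℓ)).ne_zero

/-- **Route (d), `ℤ_(ℓ)`-form ⇒ `UnitData`.** -/
theorem unitData_of_ratLocalized (N : ℕ) [NeZero N] (u : LaurentSeries ℤ)
    (P : Polynomial (Polynomial ↥(GaloisRep.ratLocalizedAt ℓ))) (K : ℕ) (hK : 0 < K) (hP : P.Monic)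
    (hroot : (P.map (Polynomial.mapRingHom (GaloisRep.ratLocalizedAt ℓ).subtype)).eval₂
        (Polynomial.eval₂RingHom (HahnSeries.C : ℚ →+* LaurentSeries ℚ) (jqModC ℚ))
        (coeffMap (Int.castRingHom ℚ) u) = 0)
    (h1 : (P.coeff (P.natDegree - 1)).natDegree = K)
    (h1u : IsUnit (P.coeff (P.natDegree - 1)).leadingCoeff)
    (h2 : ∀ k, k + 1 < P.natDegree → (P.coeff k).natDegree < K)
    (h0 : IsUnit (P.coeff 0).leadingCoeff)
    (inst : Algebra ℚ (LaurentSeries ℚ))
    (hgen : ∀ (d : ℕ) [NeZero d], d ∣ N → qExpand ℚ d jq ∈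
      @IntermediateField.adjoin ℚ _ (LaurentSeries ℚ) _ inst
        ({jqModC ℚ, coeffMap (Int.castRingHom ℚ) u} : Set (LaurentSeries ℚ))) :
    UnitData N ℓ := by
  classical
  obtain ⟨c, P', hcop, hP'⟩ := H566.exists_int_multiple ℓ P
  have hc : ¬ ℓ ∣ c := H566.not_dvd_of_coprime ℓ hcop
  have hlc : P'.leadingCoeff = Polynomial.C (c : ℤ) := H566.leadingCoeff_of_map_eq ℓ hP hP'
  have hcR : (c : ↥(GaloisRep.ratLocalizedAt ℓ)) ≠ 0 := natCast_ratLoc_ne_zero ℓ hc
  have hcz : H806.resZl ℓ (c : ↥(GaloisRep.ratLocalizedAt ℓ)) ≠ 0 := resZl_natCast_ne_zero ℓ hc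
  have hinj : Function.Injective (Polynomial.mapRingHom (Int.castRingHom ↥(GaloisRep.ratLocalizedAt ℓ))) :=
    Polynomial.map_injective _ (H566.intCast_ratLocalizedAt_injective ℓ)
  have hdeg : P'.natDegree = P.natDegree := by
    have h := congrArg Polynomial.natDegree hP'
    rw [Polynomial.natDegree_map_eq_of_injective hinj, Polynomial.natDegree_C_mul] at h
    · exact h
    · rw [Ne, Polynomial.C_eq_zero]
      exact hcR
  have hcoeff : ∀ i, ((P'.coeff i).map (Int.castRingHom (ZMod ℓ))).natDegree =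
      ((P.coeff i).map (H806.resZl ℓ)).natDegree := by
    intro i
    rw [map_intCast_zmod_coeff ℓ hP' i, Polynomial.natDegree_C_mul hcz]
  refine ⟨u, P', c, K, hc, hlc, hK, ?_, ?_, ?_, ?_, ?_⟩
  · -- root
    apply coeffMap_intCast_rat_injective
    rw [map_zero, biEval_coeffMap_intCast ℚ (jqModC ℤ) u P', coeffMap_jqModC]
    have hmap : P'.map (mapRingHom (Int.castRingHom ℚ)) =
        Polynomial.C (Polynomial.C (c : ℚ)) *
          P.map (Polynomial.mapRingHom (GaloisRep.ratLocalizedAt ℓ).subtype) := by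
      have h := congrArg (Polynomial.map
        (Polynomial.mapRingHom (GaloisRep.ratLocalizedAt ℓ).subtype)) hP'
      rw [Polynomial.map_map, Polynomial.mapRingHom_comp, subtype_comp_intCast,
        Polynomial.map_mul, Polynomial.map_C, Polynomial.coe_mapRingHom, Polynomial.map_C] at h
      rw [h]
      simp
    have hroot' : biEval (HahnSeries.C : ℚ →+* LaurentSeries ℚ) (jqModC ℚ)
        (coeffMap (Int.castRingHom ℚ) u)
        (P.map (Polynomial.mapRingHom (GaloisRep.ratLocalizedAt ℓ).subtype)) = 0 := hroot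
    rw [hmap, map_mul, hroot', mul_zero]
  · rw [hdeg, hcoeff, natDegree_map_resZl_of_isUnit ℓ h1u, h1]
  · intro i hi
    rw [hdeg] at hi
    rw [hcoeff]
    exact lt_of_le_of_lt Polynomial.natDegree_map_le (h2 i hi)
  · rw [map_intCast_zmod_coeff ℓ hP' 0]
    apply mul_ne_zero
    · rw [Ne, Polynomial.C_eq_zero]
      exact hcz
    · intro h
      have h3 := congrArg (fun p => p.coeff (P.coeff 0).natDegree) h
      simp only [Polynomial.coeff_map, Polynomial.coeff_zero] at h3
      rw [Polynomial.coeff_natDegree] at h3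
      exact (h0.map (H806.resZl ℓ)).ne_zero h3
  · intro d _ hd
    letI := inst
    exact mem_closure_of_mem_adjoin
      ({jqModC ℚ, coeffMap (Int.castRingHom ℚ) u} : Set (LaurentSeries ℚ)) (hgen d hd)

/-- **Route (d), `ℤ_(ℓ)`-form ⇒ `BasisData`.** -/
theorem basisData_of_ratLocalized (N : ℕ) [NeZero N] (u : LaurentSeries ℤ)
    (P : Polynomial (Polynomial ↥(GaloisRep.ratLocalizedAt ℓ))) (K : ℕ) (hK : 0 < K) (hP : P.Monic)
    (hroot : (P.map (Polynomial.mapRingHom (GaloisRep.ratLocalizedAt ℓ).subtype)).eval₂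
        (Polynomial.eval₂RingHom (HahnSeries.C : ℚ →+* LaurentSeries ℚ) (jqModC ℚ))
        (coeffMap (Int.castRingHom ℚ) u) = 0)
    (h1 : (P.coeff (P.natDegree - 1)).natDegree = K)
    (h1u : IsUnit (P.coeff (P.natDegree - 1)).leadingCoeff)
    (h2 : ∀ k, k + 1 < P.natDegree → (P.coeff k).natDegree < K)
    (h0 : IsUnit (P.coeff 0).leadingCoeff)
    (inst : Algebra ℚ (LaurentSeries ℚ))
    (hgen : ∀ (d : ℕ) [NeZero d], d ∣ N → qExpand ℚ d jq ∈
      @IntermediateField.adjoin ℚ _ (LaurentSeries ℚ) _ inst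
        ({jqModC ℚ, coeffMap (Int.castRingHom ℚ) u} : Set (LaurentSeries ℚ))) :
    BasisData N ℓ :=
  basisData_of_unitData N ℓ
    (unitData_of_ratLocalized ℓ N u P K hK hP hroot h1 h1u h2 h0 inst hgen)

end

end Fermat.Agent.S28.H328
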