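/-
S28 / helper328: abstract valuation step (VAL).

Setting: `R` a domain with a prime-like element `ℓ` (kernel of `π : R → k`), `V` a domain
containing `R` (via `ι`), `j u : V`, a "reduction" `red : V → E'` compatible with `π`.
If no nonzero `G ∈ k[Y][X]` of `X`-degree `< n` vanishes at `(red j, red u)`, then every
`x : V` with `b(j) x = G(j,u)` (`b ≠ 0`, `deg_X G < n`) has such a representation with
`b` primitive (nonzero mod `ℓ`); and if `red x = 0` then moreover `ℓ ∣ G`.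
-/
import Mathlib
import Fermat.Agent.S28.H328.Ind

set_option autoImplicit false
set_option linter.unusedSectionVars false

noncomputable section

namespace Fermat.Agent.S28.H328

open Polynomial

section Val

variable {R k V E' : Type*} [CommRing R] [IsDomain R] [Field k] [CommRing V] [IsDomain V]
  [Field E'] (π : R →+* k) (ι : R →+* V) (red : V →+* E') (κ : k →+* E')
  (ℓ : R)

/-- A univariate polynomial vanishing mod `ℓ` is divisible by `ℓ`. -/
theorem exists_eq_C_mul_of_map_eq_zero (hker : ∀ r, π r = 0 → ℓ ∣ r)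
    (b : R[X]) (hb : b.map π = 0) : ∃ b₁ : R[X], b = C ℓ * b₁ := by
  have : C ℓ ∣ b := by
    rw [Polynomial.C_dvd_iff_dvd_coeff]
    intro i
    apply hker
    have := congrArg (fun p => p.coeff i) hb
    simpa using this
  exact this

/-- A bivariate polynomial vanishing mod `ℓ` is divisible by `ℓ`. -/
theorem exists_eq_C_C_mul_of_map_eq_zero (hker : ∀ r, π r = 0 → ℓ ∣ r)
    (G : R[X][X]) (hG : G.map (mapRingHom π) = 0) : ∃ G₁ : R[X][X], G = C (C ℓ) * G₁ := by
  have : C (C ℓ) ∣ G := by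
    rw [Polynomial.C_dvd_iff_dvd_coeff]
    intro i
    have h1 : (G.coeff i).map π = 0 := by
      have := congrArg (fun p => p.coeff i) hG
      simpa using this
    exact exists_eq_C_mul_of_map_eq_zero π ℓ hker _ h1
  exact this

variable (j u : V) (n : ℕ)

/-- **(IND')**: a relation of `X`-degree `< n` whose reduction vanishes is divisible by `ℓ`. -/
theorem exists_eq_C_C_mul_of_red_eq_zero
    (hcomp : ∀ r, red (ι r) = κ (π r)) (hker : ∀ r, π r = 0 → ℓ ∣ r)
    (hind : ∀ G : k[X][X], G.natDegree < n → biEval κ (red j) (red u) G = 0 → G = 0)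
    (G : R[X][X]) (hG : G.natDegree < n) (h0 : red (biEval ι j u G) = 0) :
    ∃ G₁ : R[X][X], G = C (C ℓ) * G₁ := by
  apply exists_eq_C_C_mul_of_map_eq_zero π ℓ hker
  apply hind
  · exact lt_of_le_of_lt (Polynomial.natDegree_map_le) hG
  · rw [← biEval_map ι κ π red hcomp]
    exact h0

theorem natDegree_of_C_C_mul (hℓ : ℓ ≠ 0) (G₁ : R[X][X]) :
    (C (C ℓ) * G₁).natDegree = G₁.natDegree := by
  rw [Polynomial.natDegree_C_mul]
  simpa using hℓ

/-- **(VAL)**, auxiliary induction. -/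
theorem exists_primitive_den_aux
    (hcomp : ∀ r, red (ι r) = κ (π r)) (hker : ∀ r, π r = 0 → ℓ ∣ r)
    (hπℓ : π ℓ = 0) (hιℓ : ι ℓ ≠ 0)
    (hind : ∀ G : k[X][X], G.natDegree < n → biEval κ (red j) (red u) G = 0 → G = 0)
    (x : V) (m : ℕ) :
    ∀ (b : R[X]) (G : R[X][X]) (r' : R), b.leadingCoeff = ℓ ^ m * r' → π r' ≠ 0 →
      G.natDegree < n → b.eval₂ ι j * x = biEval ι j u G →
      ∃ (b' : R[X]) (G' : R[X][X]), b'.map π ≠ 0 ∧ G'.natDegree < n ∧
        b'.eval₂ ι j * x = biEval ι j u G' := by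
  have hℓ0 : ℓ ≠ 0 := fun h => hιℓ (by rw [h, map_zero])
  induction m with
  | zero =>
    intro b G r' hlc hr' hG h
    refine ⟨b, G, ?_, hG, h⟩
    intro hb
    have := congrArg (fun p => p.coeff b.natDegree) hb
    simp only [Polynomial.coeff_map, Polynomial.coeff_zero] at this
    rw [Polynomial.coeff_natDegree, hlc, pow_zero, one_mul] at this
    exact hr' this
  | succ m ih =>
    intro b G r' hlc hr' hG h
    by_cases hb : b.map π = 0
    · obtain ⟨b₁, rfl⟩ := exists_eq_C_mul_of_map_eq_zero π ℓ hker b hb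
      have h0 : red (biEval ι j u G) = 0 := by
        rw [← h, Polynomial.eval₂_mul, Polynomial.eval₂_C, map_mul, map_mul, hcomp, hπℓ,
          map_zero, zero_mul, zero_mul]
      obtain ⟨G₁, rfl⟩ := exists_eq_C_C_mul_of_red_eq_zero π ι red κ ℓ j u n hcomp hker hind G hG h0
      rw [natDegree_of_C_C_mul ℓ hℓ0] at hG
      have hlc' : b₁.leadingCoeff = ℓ ^ m * r' := by
        rw [Polynomial.leadingCoeff_mul, Polynomial.leadingCoeff_C, pow_succ', mul_assoc] at hlc
        exact mul_left_cancel₀ hℓ0 hlc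
      have h' : b₁.eval₂ ι j * x = biEval ι j u G₁ := by
        rw [Polynomial.eval₂_mul, Polynomial.eval₂_C, map_mul, biEval_C_C, mul_assoc] at h
        exact mul_left_cancel₀ hιℓ h
      exact ih b₁ G₁ r' hlc' hr' hG h'
    · exact ⟨b, G, hb, hG, h⟩

/-- **(VAL)**: denominators can be made primitive. -/
theorem exists_primitive_den
    (hcomp : ∀ r, red (ι r) = κ (π r)) (hker : ∀ r, π r = 0 → ℓ ∣ r)
    (hπℓ : π ℓ = 0) (hιℓ : ι ℓ ≠ 0)
    (hprim : ∀ r : R, r ≠ 0 → ∃ (m : ℕ) (r' : R), r = ℓ ^ m * r' ∧ π r' ≠ 0)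
    (hind : ∀ G : k[X][X], G.natDegree < n → biEval κ (red j) (red u) G = 0 → G = 0)
    (x : V) (b : R[X]) (hb : b ≠ 0) (G : R[X][X]) (hG : G.natDegree < n)
    (h : b.eval₂ ι j * x = biEval ι j u G) :
    ∃ (b' : R[X]) (G' : R[X][X]), b'.map π ≠ 0 ∧ G'.natDegree < n ∧
      b'.eval₂ ι j * x = biEval ι j u G' := by
  obtain ⟨m, r', hlc, hr'⟩ := hprim b.leadingCoeff (Polynomial.leadingCoeff_ne_zero.mpr hb)
  exact exists_primitive_den_aux π ι red κ ℓ j u n hcomp hker hπℓ hιℓ hind x m b G r' hlc hr' hG h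

/-- **(VAL), kernel part**: if `red x = 0` then the numerator is divisible by `ℓ`. -/
theorem exists_primitive_den_of_red_eq_zero
    (hcomp : ∀ r, red (ι r) = κ (π r)) (hker : ∀ r, π r = 0 → ℓ ∣ r)
    (hπℓ : π ℓ = 0) (hιℓ : ι ℓ ≠ 0)
    (hprim : ∀ r : R, r ≠ 0 → ∃ (m : ℕ) (r' : R), r = ℓ ^ m * r' ∧ π r' ≠ 0)
    (hind : ∀ G : k[X][X], G.natDegree < n → biEval κ (red j) (red u) G = 0 → G = 0)
    (x : V) (hx : red x = 0) (b : R[X]) (hb : b ≠ 0) (G : R[X][X]) (hG : G.natDegree < n)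
    (h : b.eval₂ ι j * x = biEval ι j u G) :
    ∃ (b' : R[X]) (G' : R[X][X]), b'.map π ≠ 0 ∧ G'.natDegree < n ∧
      b'.eval₂ ι j * x = ι ℓ * biEval ι j u G' := by
  have hℓ0 : ℓ ≠ 0 := fun h => hιℓ (by rw [h, map_zero])
  obtain ⟨b', G', hb', hG', h'⟩ :=
    exists_primitive_den π ι red κ ℓ j u n hcomp hker hπℓ hιℓ hprim hind x b hb G hG h
  have h0 : red (biEval ι j u G') = 0 := by
    rw [← h', map_mul, hx, mul_zero]
  obtain ⟨G₁, rfl⟩ := exists_eq_C_C_mul_of_red_eq_zero π ι red κ ℓ j u n hcomp hker hind G' hG' h0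
  rw [natDegree_of_C_C_mul ℓ hℓ0] at hG'
  refine ⟨b', G₁, hb', hG', ?_⟩
  rw [h', map_mul, biEval_C_C]

end Val

end Fermat.Agent.S28.H328
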